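import Fermat.Agent.S52.Klein

/-!
# S52 / Fam : formal properties of the polynomial functions `famD`, `famC4`, `famC6`
-/

set_option autoImplicit false
set_option linter.unusedSimpArgs false

namespace Fermat.Agent.S52

variable {R S : Type*} [CommRing R] [CommRing S]

theorem map_famD (f : R →+* S) (c4 c6 D t : R) :
    f (famD c4 c6 D t) = famD (f c4) (f c6) (f D) (f t) := by
  simp only [famD, famD_0, famD_1, famD_2, famD_3, famD_4, famD_5, famD_6, famD_7, famD_8, famD_9, famD_10, famD_11, famD_12,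
    map_add, map_sub, map_mul, map_pow, map_neg, map_ofNat, map_one, map_zero]

theorem map_famDd (f : R →+* S) (c4 c6 D t : R) :
    f (famDd c4 c6 D t) = famDd (f c4) (f c6) (f D) (f t) := by
  simp only [famDd, famD_0, famD_1, famD_2, famD_3, famD_4, famD_5, famD_6, famD_7, famD_8, famD_9, famD_10, famD_11, famD_12,
    map_add, map_sub, map_mul, map_pow, map_neg, map_ofNat, map_one, map_zero]

theorem map_famC4 (f : R →+* S) (c4 c6 D t : R) :
    f (famC4 c4 c6 D t) = famC4 (f c4) (f c6) (f D) (f t) := by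
  simp only [famC4, famC4_0, famC4_1, famC4_2, famC4_3, famC4_4, famC4_5, famC4_6, famC4_7, famC4_8, famC4_9, famC4_10, famC4_11, famC4_12, famC4_13, famC4_14, famC4_15, famC4_16, famC4_17, famC4_18, famC4_19, famC4_20,
    map_add, map_sub, map_mul, map_pow, map_neg, map_ofNat, map_one, map_zero]

theorem map_famC6 (f : R →+* S) (c4 c6 D t : R) :
    f (famC6 c4 c6 D t) = famC6 (f c4) (f c6) (f D) (f t) := by
  simp only [famC6, famC6_0, famC6_1, famC6_2, famC6_3, famC6_4, famC6_5, famC6_6, famC6_7, famC6_8, famC6_9, famC6_10, famC6_11, famC6_12, famC6_13, famC6_14, famC6_15, famC6_16, famC6_17, famC6_18, famC6_19, famC6_20, famC6_21, famC6_22, famC6_23, famC6_24, famC6_25, famC6_26, famC6_27, famC6_28, famC6_29, famC6_30,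
    map_add, map_sub, map_mul, map_pow, map_neg, map_ofNat, map_one, map_zero]

theorem famD_zero (c4 c6 D : R) : famD c4 c6 D 0 = 1 := by
  simp [famD, famD_0]

theorem famC4_zero (c4 c6 D : R) : famC4 c4 c6 D 0 = c4 := by
  simp [famC4, famC4_0]

theorem famC6_zero (c4 c6 D : R) : famC6 c4 c6 D 0 = c6 := by
  simp [famC6, famC6_0]

theorem Fam_pow_add (t h : R) (k : ℕ) :
    ∃ r : R, (t + h) ^ (k + 1) = t ^ (k + 1) + ((k + 1 : ℕ) : R) * t ^ k * h + h ^ 2 * r := by
  obtain ⟨r, hr⟩ := Polynomial.powAddExpansion t h (k + 1)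
  exact ⟨r, by rw [hr, Nat.add_sub_cancel]; ring⟩

/-- second order Taylor expansion (`Polynomial.binomExpansion`, or `k`-th power by `k`-th power). -/
theorem famD_add (c4 c6 D t h : R) :
    ∃ r : R, famD c4 c6 D (t + h) = famD c4 c6 D t + h * famDd c4 c6 D t + h ^ 2 * r := by
  unfold famD famDd
  generalize famD_0 c4 c6 D = a0
  generalize famD_1 c4 c6 D = a1
  generalize famD_2 c4 c6 D = a2
  generalize famD_3 c4 c6 D = a3
  generalize famD_4 c4 c6 D = a4
  generalize famD_5 c4 c6 D = a5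
  generalize famD_6 c4 c6 D = a6
  generalize famD_7 c4 c6 D = a7
  generalize famD_8 c4 c6 D = a8
  generalize famD_9 c4 c6 D = a9
  generalize famD_10 c4 c6 D = a10
  generalize famD_11 c4 c6 D = a11
  generalize famD_12 c4 c6 D = a12
  obtain ⟨r2, h2⟩ := Fam_pow_add t h 1
  obtain ⟨r3, h3⟩ := Fam_pow_add t h 2
  obtain ⟨r4, h4⟩ := Fam_pow_add t h 3
  obtain ⟨r5, h5⟩ := Fam_pow_add t h 4
  obtain ⟨r6, h6⟩ := Fam_pow_add t h 5
  obtain ⟨r7, h7⟩ := Fam_pow_add t h 6
  obtain ⟨r8, h8⟩ := Fam_pow_add t h 7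
  obtain ⟨r9, h9⟩ := Fam_pow_add t h 8
  obtain ⟨r10, h10⟩ := Fam_pow_add t h 9
  obtain ⟨r11, h11⟩ := Fam_pow_add t h 10
  obtain ⟨r12, h12⟩ := Fam_pow_add t h 11
  push_cast at h2 h3 h4 h5 h6 h7 h8 h9 h10 h11 h12
  norm_num at h2 h3 h4 h5 h6 h7 h8 h9 h10 h11 h12
  refine ⟨a2 * r2 + a3 * r3 + a4 * r4 + a5 * r5 + a6 * r6 + a7 * r7 + a8 * r8 + a9 * r9 + a10 * r10 + a11 * r11 + a12 * r12, ?_⟩
  linear_combination a2 * h2 + a3 * h3 + a4 * h4 + a5 * h5 + a6 * h6 + a7 * h7 + a8 * h8 + a9 * h9 + a10 * h10 + a11 * h11 + a12 * h12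

theorem Fam_term_dvd (a t t' : R) (k : ℕ) : t - t' ∣ a * t ^ k - a * t' ^ k := by
  rw [← mul_sub]
  exact Dvd.dvd.mul_left (sub_dvd_pow_sub_pow t t' k) a

theorem Fam_term_dvd_one (a t t' : R) : t - t' ∣ a * t - a * t' := by
  rw [← mul_sub]
  exact Dvd.intro_left a rfl

theorem Fam_const_dvd (a t t' : R) : t - t' ∣ a - a := by
  rw [sub_self]
  exact dvd_zero _

theorem famD_sub_dvd (c4 c6 D t t' : R) : t - t' ∣ famD c4 c6 D t - famD c4 c6 D t' := by
  unfold famD
  simp only [add_sub_add_comm]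
  repeat' first
    | exact Fam_term_dvd _ _ _ _
    | exact Fam_term_dvd_one _ _ _
    | exact Fam_const_dvd _ _ _
    | apply dvd_add

theorem famC4_sub_dvd (c4 c6 D t t' : R) : t - t' ∣ famC4 c4 c6 D t - famC4 c4 c6 D t' := by
  unfold famC4
  simp only [add_sub_add_comm]
  repeat' first
    | exact Fam_term_dvd _ _ _ _
    | exact Fam_term_dvd_one _ _ _
    | exact Fam_const_dvd _ _ _
    | apply dvd_add

theorem famC6_sub_dvd (c4 c6 D t t' : R) : t - t' ∣ famC6 c4 c6 D t - famC6 c4 c6 D t' := by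
  unfold famC6
  simp only [add_sub_add_comm]
  repeat' first
    | exact Fam_term_dvd _ _ _ _
    | exact Fam_term_dvd_one _ _ _
    | exact Fam_const_dvd _ _ _
    | apply dvd_add

end Fermat.Agent.S52
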