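import Fermat.Agent.S52.Klein

/-!
# S52 / Hess : the Hessian identity of the family
-/

set_option autoImplicit false

namespace Fermat.Agent.S52

set_option maxHeartbeats 4000000 in
/-- the Hessian identity.  `linear_combination Q * hrel'` with `hrel' : c4^3 - c6^2 - 1728*D = 0` and
`Q = 158400 * c4 ^ 8 * t ^ 20 - 1267200 * c4 ^ 7 * t ^ 18 + 9504000 * c4 ^ 6 * t ^ 16 + 280284364800 * c4 ^ 5 * D * t ^ 20 + 17487360 * c4 ^ 5 * t ^ 14 - 1296315187200 * c4 ^ 4 * D * t ^ 18 + 119560320 * c4 ^ 4 * t ^ 12 - 42463081267200 * c4 ^ 3 * D * t ^ 16 + 126567936 * c4 ^ 3 * t ^ 10 + 123988833887846400 * c4 ^ 2 * D ^ 2 * t ^ 20 - 96908319129600 * c4 ^ 2 * D * t ^ 14 + 112907520 * c4 ^ 2 * t ^ 8 - 154986042359808000 * c4 * D ^ 2 * t ^ 18 - 118980712857600 * c4 * D * t ^ 12 + 25090560 * c4 * t ^ 6 + 1598293561835520000 * D ^ 2 * t ^ 16 - 36612145152000 * D * t ^ 10 + 5227200 * t ^ 4`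
(after unfolding everything: `12 famD famDdd - 11 famDd² + 1584 famC4 = Q * (c4³ - c6² - 1728 D)` is an identity). -/
theorem fam_hessian {R : Type*} [CommRing R] (c4 c6 D t : R) (hrel : c4 ^ 3 - c6 ^ 2 = 1728 * D) :
    12 * famD c4 c6 D t * famDdd c4 c6 D t - 11 * famDd c4 c6 D t ^ 2
      + 1584 * famC4 c4 c6 D t = 0 := by
  simp only [famD, famDd, famDdd, famC4, famD_0, famD_1, famD_2, famD_3, famD_4, famD_5, famD_6, famD_7, famD_8, famD_9, famD_10, famD_11, famD_12, famC4_0, famC4_1, famC4_2, famC4_3, famC4_4, famC4_5, famC4_6, famC4_7, famC4_8, famC4_9, famC4_10, famC4_11, famC4_12, famC4_13, famC4_14, famC4_15, famC4_16, famC4_17, famC4_18, famC4_19, famC4_20]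
  linear_combination (158400 * c4 ^ 8 * t ^ 20 - 1267200 * c4 ^ 7 * t ^ 18 + 9504000 * c4 ^ 6 * t ^ 16 + 280284364800 * c4 ^ 5 * D * t ^ 20 + 17487360 * c4 ^ 5 * t ^ 14 - 1296315187200 * c4 ^ 4 * D * t ^ 18 + 119560320 * c4 ^ 4 * t ^ 12 - 42463081267200 * c4 ^ 3 * D * t ^ 16 + 126567936 * c4 ^ 3 * t ^ 10 + 123988833887846400 * c4 ^ 2 * D ^ 2 * t ^ 20 - 96908319129600 * c4 ^ 2 * D * t ^ 14 + 112907520 * c4 ^ 2 * t ^ 8 - 154986042359808000 * c4 * D ^ 2 * t ^ 18 - 118980712857600 * c4 * D * t ^ 12 + 25090560 * c4 * t ^ 6 + 1598293561835520000 * D ^ 2 * t ^ 16 - 36612145152000 * D * t ^ 10 + 5227200 * t ^ 4) * hrel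

end Fermat.Agent.S52
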