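import Fermat.Agent.S52.Klein

/-!
# S52 / KP : Klein points over an algebraically closed field
-/

set_option autoImplicit false

namespace Fermat.Agent.S52

variable {k : Type*} [Field k]

theorem KP_two_ne (h30 : (30 : k) ≠ 0) : (2 : k) ≠ 0 := by
  intro h
  apply h30
  have : (30 : k) = 2 * 15 := by norm_num
  rw [this, h, zero_mul]

theorem KP_three_ne (h30 : (30 : k) ≠ 0) : (3 : k) ≠ 0 := by
  intro h
  apply h30
  have : (30 : k) = 3 * 10 := by norm_num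
  rw [this, h, zero_mul]

theorem KP_five_ne (h30 : (30 : k) ≠ 0) : (5 : k) ≠ 0 := by
  intro h
  apply h30
  have : (30 : k) = 5 * 6 := by norm_num
  rw [this, h, zero_mul]

theorem KP_const_ne (h30 : (30 : k) ≠ 0) : (1406250000 : k) ≠ 0 := by
  have : (1406250000 : k) = 2 ^ 4 * 3 ^ 2 * 5 ^ 10 := by norm_num
  rw [this]
  exact mul_ne_zero (mul_ne_zero (pow_ne_zero _ (KP_two_ne h30)) (pow_ne_zero _ (KP_three_ne h30)))
    (pow_ne_zero _ (KP_five_ne h30))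

theorem KP_1728_ne (h30 : (30 : k) ≠ 0) : (1728 : k) ≠ 0 := by
  have : (1728 : k) = 2 ^ 6 * 3 ^ 3 := by norm_num
  rw [this]
  exact mul_ne_zero (pow_ne_zero _ (KP_two_ne h30)) (pow_ne_zero _ (KP_three_ne h30))

theorem KP_bezout_X (X Y : k) :
    (950431323 * X ^ 5 - 20237705983 * X ^ 4 * Y - 103588896 * X ^ 3 * Y ^ 2
      - 20237108822 * X ^ 2 * Y ^ 3 - 1055557719 * X * Y ^ 4 + 2022161 * Y ^ 5) * kC4 X Y
    + (455818677 * X ^ 3 - 1001301767 * X ^ 2 * Y - 461063031 * X * Y ^ 2 - 2022161 * Y ^ 3)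
      * kC6 X Y = 1406250000 * X ^ 9 := by
  simp only [kC4, kC6]
  ring

theorem KP_bezout_Y (X Y : k) :
    (-2022161 * X ^ 5 - 1055557719 * X ^ 4 * Y + 20237108822 * X ^ 3 * Y ^ 2
      - 103588896 * X ^ 2 * Y ^ 3 + 20237705983 * X * Y ^ 4 + 950431323 * Y ^ 5) * kC4 X Y
    + (2022161 * X ^ 3 - 461063031 * X ^ 2 * Y + 1001301767 * X * Y ^ 2 + 455818677 * Y ^ 3)
      * kC6 X Y = 1406250000 * Y ^ 9 := by
  simp only [kC4, kC6]
  ring

/-- `kC4`, `kC6` have no common zero.  BEZOUT (checked):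
`P * kC4 + Q * kC6 = 1406250000 * X ^ 9`, `1406250000 = 2^4 3^2 5^10`, with
`P = 950431323 * X ^ 5 - 20237705983 * X ^ 4 * Y - 103588896 * X ^ 3 * Y ^ 2 - 20237108822 * X ^ 2 * Y ^ 3 - 1055557719 * X * Y ^ 4 + 2022161 * Y ^ 5`,
`Q = 455818677 * X ^ 3 - 1001301767 * X ^ 2 * Y - 461063031 * X * Y ^ 2 - 2022161 * Y ^ 3`;
`P' * kC4 + Q' * kC6 = 1406250000 * Y ^ 9` with
`P' = -2022161 * X ^ 5 - 1055557719 * X ^ 4 * Y + 20237108822 * X ^ 3 * Y ^ 2 - 103588896 * X ^ 2 * Y ^ 3 + 20237705983 * X * Y ^ 4 + 950431323 * Y ^ 5`,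
`Q' = 2022161 * X ^ 3 - 461063031 * X ^ 2 * Y + 1001301767 * X * Y ^ 2 + 455818677 * Y ^ 3`. -/
theorem kC_eq_zero (h30 : (30 : k) ≠ 0) {X Y : k} (h4 : kC4 X Y = 0) (h6 : kC6 X Y = 0) :
    X = 0 ∧ Y = 0 := by
  have hX := KP_bezout_X X Y
  have hY := KP_bezout_Y X Y
  rw [h4, h6, mul_zero, mul_zero, add_zero] at hX hY
  constructor
  · rcases mul_eq_zero.mp hX.symm with h | h
    · exact absurd h (KP_const_ne h30)
    · exact pow_eq_zero_iff (by norm_num) |>.mp h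
  · rcases mul_eq_zero.mp hY.symm with h | h
    · exact absurd h (KP_const_ne h30)
    · exact pow_eq_zero_iff (by norm_num) |>.mp h

theorem KP_kC4_smul (l z : k) : kC4 (l * z) l = l ^ 4 * kC4 z 1 := by
  simp only [kC4]; ring

theorem KP_kC6_smul (l z : k) : kC6 (l * z) l = l ^ 6 * kC6 z 1 := by
  simp only [kC6]; ring

open Polynomial in
/-- the degree 12 polynomial. -/
noncomputable def KP_G (c4 c6 : k) : k[X] :=
  C (c6 ^ 2) * (X ^ 4 - C 228 * X ^ 3 + C 494 * X ^ 2 + C 228 * X + C 1) ^ 3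
    - C (c4 ^ 3) * (X ^ 6 + C 522 * X ^ 5 - C 10005 * X ^ 4 - C 10005 * X ^ 2 - C 522 * X + C 1) ^ 2

open Polynomial in
theorem KP_G_eval (c4 c6 z : k) :
    (KP_G c4 c6).eval z = c6 ^ 2 * kC4 z 1 ^ 3 - c4 ^ 3 * kC6 z 1 ^ 2 := by
  simp only [KP_G, kC4, kC6, eval_sub, eval_mul, eval_pow, eval_add, eval_C, eval_X]
  ring

open Polynomial in
theorem KP_G_natDegree (c4 c6 : k) (h : c6 ^ 2 - c4 ^ 3 ≠ 0) : (KP_G c4 c6).natDegree = 12 := by
  unfold KP_G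
  compute_degree!

theorem KP_exists_root [IsAlgClosed k] (c4 c6 : k) (h : c6 ^ 2 - c4 ^ 3 ≠ 0) :
    ∃ z : k, c6 ^ 2 * kC4 z 1 ^ 3 = c4 ^ 3 * kC6 z 1 ^ 2 := by
  have hd : (KP_G c4 c6).degree ≠ 0 := by
    rw [Polynomial.degree_eq_natDegree (by
      intro h0
      have := KP_G_natDegree c4 c6 h
      rw [h0] at this
      simp at this), KP_G_natDegree c4 c6 h]
    norm_num
  obtain ⟨z, hz⟩ := IsAlgClosed.exists_root _ hd
  refine ⟨z, ?_⟩
  rw [Polynomial.IsRoot.def, KP_G_eval] at hz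
  exact sub_eq_zero.mp hz

/-- PROOF.  `G(z) = c6² kC4(z,1)³ - c4³ kC6(z,1)²` is a polynomial of degree exactly `12` in `z`
(leading coefficient `c6² - c4³ = -1728 D ≠ 0`), so it has a root `z`.  `p = kC4 z 1`, `q = kC6 z 1` are not
both `0` (`kC_eq_zero`).  `p = 0`: then `c4 = 0`, take `λ` with `λ⁶ q = c6`.  `q = 0`: then `c6 = 0`, take `λ` with
`λ⁴ p = c4`.  Otherwise `c4, c6 ≠ 0` (both zero contradicts `D ≠ 0`), `μ = (c6 p)/(q c4)` satisfies `μ² p = c4`,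
`μ³ q = c6`; `λ² = μ`.  `(X, Y) = (λ z, λ)`; `kC4 (λ z) λ = λ⁴ kC4 z 1`, `kC6 (λ z) λ = λ⁶ kC6 z 1` (`ring`).
`kD X Y = D` from `kC_relation` and `1728 ≠ 0`. -/
theorem exists_klein_point [IsAlgClosed k] (h30 : (30 : k) ≠ 0) (c4 c6 D : k)
    (hrel : c4 ^ 3 - c6 ^ 2 = 1728 * D) (hD : D ≠ 0) :
    ∃ X Y : k, kC4 X Y = c4 ∧ kC6 X Y = c6 ∧ kD X Y = D := by
  have h1728 := KP_1728_ne h30
  have hne : c6 ^ 2 - c4 ^ 3 ≠ 0 := by
    intro h
    have : (1728 : k) * D = 0 := by rw [← hrel]; linear_combination -h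
    exact (mul_ne_zero h1728 hD) this
  -- it suffices to find `X, Y` with the right `c4`, `c6`
  suffices hs : ∃ X Y : k, kC4 X Y = c4 ∧ kC6 X Y = c6 by
    obtain ⟨X, Y, h4, h6⟩ := hs
    refine ⟨X, Y, h4, h6, ?_⟩
    have := kC_relation X Y
    rw [h4, h6, hrel] at this
    exact (mul_left_cancel₀ h1728 this).symm
  obtain ⟨z, hz⟩ := KP_exists_root c4 c6 hne
  set p := kC4 z 1 with hp
  set q := kC6 z 1 with hq
  have hpq : ¬ (p = 0 ∧ q = 0) := by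
    rintro ⟨h1, h2⟩
    exact one_ne_zero (kC_eq_zero h30 h1 h2).2
  by_cases hp0 : p = 0
  · have hq0 : q ≠ 0 := fun h => hpq ⟨hp0, h⟩
    have hc4 : c4 = 0 := by
      rw [hp0] at hz
      have : c4 ^ 3 * q ^ 2 = 0 := by rw [← hz]; ring
      rcases mul_eq_zero.mp this with h | h
      · exact pow_eq_zero_iff (by norm_num) |>.mp h
      · exact absurd (pow_eq_zero_iff (by norm_num) |>.mp h) hq0
    obtain ⟨l, hl⟩ := IsAlgClosed.exists_pow_nat_eq (c6 / q) (n := 6) (by norm_num)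
    refine ⟨l * z, l, ?_, ?_⟩
    · rw [KP_kC4_smul, ← hp, hp0, hc4, mul_zero]
    · rw [KP_kC6_smul, ← hq, hl, div_mul_cancel₀ _ hq0]
  by_cases hq0 : q = 0
  · have hc6 : c6 = 0 := by
      rw [hq0] at hz
      have : c6 ^ 2 * p ^ 3 = 0 := by rw [hz]; ring
      rcases mul_eq_zero.mp this with h | h
      · exact pow_eq_zero_iff (by norm_num) |>.mp h
      · exact absurd (pow_eq_zero_iff (by norm_num) |>.mp h) hp0
    obtain ⟨l, hl⟩ := IsAlgClosed.exists_pow_nat_eq (c4 / p) (n := 4) (by norm_num)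
    refine ⟨l * z, l, ?_, ?_⟩
    · rw [KP_kC4_smul, ← hp, hl, div_mul_cancel₀ _ hp0]
    · rw [KP_kC6_smul, ← hq, hq0, hc6, mul_zero]
  have hc4 : c4 ≠ 0 := by
    intro h
    rw [h] at hz
    have h2 : c6 ^ 2 * p ^ 3 = 0 := by rw [hz]; ring
    have hc6 : c6 = 0 := by
      rcases mul_eq_zero.mp h2 with h | h
      · exact pow_eq_zero_iff (by norm_num) |>.mp h
      · exact absurd (pow_eq_zero_iff (by norm_num) |>.mp h) hp0
    apply hne
    rw [h, hc6]; ring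
  obtain ⟨l, hl⟩ := IsAlgClosed.exists_pow_nat_eq ((c6 * p) / (q * c4)) (n := 2) (by norm_num)
  refine ⟨l * z, l, ?_, ?_⟩
  · rw [KP_kC4_smul, ← hp]
    have : l ^ 4 = (l ^ 2) ^ 2 := by ring
    rw [this, hl]
    field_simp
    linear_combination hz
  · rw [KP_kC6_smul, ← hq]
    have : l ^ 6 = (l ^ 2) ^ 3 := by ring
    rw [this, hl]
    field_simp
    linear_combination c6 * hz

end Fermat.Agent.S52
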