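import Fermat.Agent.S52.KLine
import Fermat.Agent.S52.KP
import Fermat.Agent.S52.Fam
import Fermat.Agent.S52.Hess

/-!
# S52 / FamAlg : algebraic properties of the family (relation, semistability, simple cusps)
-/

set_option autoImplicit false

namespace Fermat.Agent.S52

variable {k : Type*} [Field k]

theorem FamAlg_relation_closed [IsAlgClosed k] (h30 : (30 : k) ≠ 0) (c4 c6 D t : k)
    (hrel : c4 ^ 3 - c6 ^ 2 = 1728 * D) (hD : D ≠ 0) :
    famC4 c4 c6 D t ^ 3 - famC6 c4 c6 D t ^ 2 = 1728 * (D * famD c4 c6 D t ^ 5) := by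
  obtain ⟨X, Y, rfl, rfl, rfl⟩ := exists_klein_point h30 c4 c6 D hrel hD
  rw [← kC4_line, ← kC6_line, ← kD_line]
  exact kC_relation _ _

theorem FamAlg_coprime_closed [IsAlgClosed k] (h30 : (30 : k) ≠ 0) (c4 c6 D t : k)
    (hrel : c4 ^ 3 - c6 ^ 2 = 1728 * D) (hD : D ≠ 0) (h0 : famD c4 c6 D t = 0) :
    famC4 c4 c6 D t ≠ 0 := by
  intro h4
  obtain ⟨X, Y, rfl, rfl, rfl⟩ := exists_klein_point h30 c4 c6 D hrel hD
  have hr := kC_relation (kX X Y t) (kY X Y t)
  rw [kD_line, h0, kC4_line, h4] at hr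
  have h6 : kC6 (kX X Y t) (kY X Y t) = 0 := by
    have : kC6 (kX X Y t) (kY X Y t) ^ 2 = 0 := by linear_combination -hr
    exact (pow_eq_zero_iff two_ne_zero).1 this
  have h4' : kC4 (kX X Y t) (kY X Y t) = 0 := by rw [kC4_line, h4]
  obtain ⟨hX, hY⟩ := kC_eq_zero h30 h4' h6
  have hX0 : X ≠ 0 := by
    rintro rfl
    apply hD
    simp [kD]
  have hY0 : Y ≠ 0 := by
    rintro rfl
    apply hD
    simp [kD]
  have hphi : kphi X Y ≠ 0 := by
    intro h
    apply hD
    simp [kD, h]
  have h1 : 1 + t * ka X Y = 0 := by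
    unfold kX at hX
    rcases mul_eq_zero.1 hX with h | h
    · exact absurd h hX0
    · exact (pow_eq_zero_iff (by norm_num)).1 h
  have h2 : 1 - t * kb X Y = 0 := by
    unfold kY at hY
    rcases mul_eq_zero.1 hY with h | h
    · exact absurd h hY0
    · exact (pow_eq_zero_iff (by norm_num)).1 h
  have h12 : (12 : k) ≠ 0 := by
    intro h
    apply h30
    have h3 : (2 : k) * 2 * 3 = 0 := by linear_combination h
    rcases mul_eq_zero.1 h3 with h3 | h3
    · rcases mul_eq_zero.1 h3 with h3 | h3 <;> linear_combination 15 * h3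
    · linear_combination 10 * h3
  have h3 : t * (12 * kphi X Y) = 0 := by
    have : ka X Y + kb X Y = 12 * kphi X Y := by
      unfold ka kb kphi
      ring
    rw [← this]
    linear_combination h1 - h2
  rcases mul_eq_zero.1 h3 with h | h
  · rw [h, zero_mul, add_zero] at h1
    exact one_ne_zero h1
  · exact (mul_ne_zero h12 hphi) h

/-- pass to `AlgebraicClosure k` (`map_fam*`, injectivity), take a Klein point, use `kC4_line`, `kC6_line`,
`kD_line` and `kC_relation` at `(kX X Y t, kY X Y t)`. -/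
theorem fam_relation (h30 : (30 : k) ≠ 0) (c4 c6 D t : k) (hrel : c4 ^ 3 - c6 ^ 2 = 1728 * D)
    (hD : D ≠ 0) :
    famC4 c4 c6 D t ^ 3 - famC6 c4 c6 D t ^ 2 = 1728 * (D * famD c4 c6 D t ^ 5) := by
  have hinj : Function.Injective (algebraMap k (AlgebraicClosure k)) :=
    (algebraMap k (AlgebraicClosure k)).injective
  apply hinj
  have h30' : (30 : AlgebraicClosure k) ≠ 0 := by
    intro h
    apply h30
    apply hinj
    rw [map_ofNat, map_zero, h]
  have hrel' := congrArg (algebraMap k (AlgebraicClosure k)) hrel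
  simp only [map_sub, map_pow, map_mul, map_ofNat] at hrel'
  have hD' : algebraMap k (AlgebraicClosure k) D ≠ 0 := by
    rw [Ne, map_eq_zero_iff _ hinj]
    exact hD
  have h := FamAlg_relation_closed h30' _ _ _ (algebraMap k (AlgebraicClosure k) t) hrel' hD'
  simp only [map_sub, map_pow, map_mul, map_ofNat, map_famC4, map_famC6, map_famD]
  exact h

/-- semistability.  At a Klein point over the algebraic closure: `famD = 0 = famC4` gives
`kC4 = kC6 = 0` at `(kX, kY)` (relation), so `kX = kY = 0` (`kC_eq_zero`); `X, Y ≠ 0` (`kD ≠ 0`), so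
`1 + t a = 0 = 1 - t b`, `t (a + b) = 0`, `a + b = 12 kphi X Y ≠ 0`, `t = 0`, `1 = 0`. -/
theorem fam_coprime (h30 : (30 : k) ≠ 0) (c4 c6 D t : k) (hrel : c4 ^ 3 - c6 ^ 2 = 1728 * D)
    (hD : D ≠ 0) (h0 : famD c4 c6 D t = 0) : famC4 c4 c6 D t ≠ 0 := by
  have hinj : Function.Injective (algebraMap k (AlgebraicClosure k)) :=
    (algebraMap k (AlgebraicClosure k)).injective
  have h30' : (30 : AlgebraicClosure k) ≠ 0 := by
    intro h
    apply h30
    apply hinj
    rw [map_ofNat, map_zero, h]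
  have hrel' := congrArg (algebraMap k (AlgebraicClosure k)) hrel
  simp only [map_sub, map_pow, map_mul, map_ofNat] at hrel'
  have hD' : algebraMap k (AlgebraicClosure k) D ≠ 0 := by
    rw [Ne, map_eq_zero_iff _ hinj]
    exact hD
  have h0' := congrArg (algebraMap k (AlgebraicClosure k)) h0
  rw [map_famD, map_zero] at h0'
  have h := FamAlg_coprime_closed h30' _ _ _ (algebraMap k (AlgebraicClosure k) t) hrel' hD' h0'
  intro h4
  apply h
  rw [← map_famC4, h4, map_zero]

/-- `fam_relation` + `fam_coprime`. -/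
theorem fam_coprime6 (h30 : (30 : k) ≠ 0) (c4 c6 D t : k) (hrel : c4 ^ 3 - c6 ^ 2 = 1728 * D)
    (hD : D ≠ 0) (h0 : famD c4 c6 D t = 0) : famC6 c4 c6 D t ≠ 0 := by
  intro h6
  have h := fam_relation h30 c4 c6 D t hrel hD
  rw [h0, h6] at h
  have h4 : famC4 c4 c6 D t ^ 3 = 0 := by linear_combination h
  exact fam_coprime h30 c4 c6 D t hrel hD h0 ((pow_eq_zero_iff (by norm_num)).1 h4)

/-- the cusps are simple: `fam_hessian` + `fam_coprime` (`1584 = 2^4 3^2 11`). -/
theorem fam_simple (h330 : (330 : k) ≠ 0) (c4 c6 D t : k) (hrel : c4 ^ 3 - c6 ^ 2 = 1728 * D)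
    (hD : D ≠ 0) (h0 : famD c4 c6 D t = 0) : famDd c4 c6 D t ≠ 0 := by
  intro hd
  have h30 : (30 : k) ≠ 0 := by
    intro h
    apply h330
    linear_combination 11 * h
  have h := fam_hessian c4 c6 D t hrel
  rw [h0, hd] at h
  have h1584 : (1584 : k) ≠ 0 := by
    intro h'
    apply h330
    have h3 : (2 : k) ^ 4 * (3 ^ 2 * 11) = 0 := by linear_combination h'
    rcases mul_eq_zero.1 h3 with h3 | h3
    · have := (pow_eq_zero_iff (by norm_num)).1 h3
      linear_combination 165 * this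
    · rcases mul_eq_zero.1 h3 with h3 | h3
      · have := (pow_eq_zero_iff (by norm_num)).1 h3
        linear_combination 110 * this
      · linear_combination 30 * h3
  have h4 : 1584 * famC4 c4 c6 D t = 0 := by linear_combination h
  rcases mul_eq_zero.1 h4 with h5 | h5
  · exact h1584 h5
  · exact fam_coprime h30 c4 c6 D t hrel hD h0 h5

/-- `fam_relation` over `ℚ` + casts. -/
theorem fam_relation_int (c4 c6 D t : ℤ) (hrel : c4 ^ 3 - c6 ^ 2 = 1728 * D) (hD : D ≠ 0) :
    famC4 c4 c6 D t ^ 3 - famC6 c4 c6 D t ^ 2 = 1728 * (D * famD c4 c6 D t ^ 5) := by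
  have hinj : Function.Injective (Int.castRingHom ℚ) := Int.cast_injective
  apply hinj
  have hrel' := congrArg (Int.castRingHom ℚ) hrel
  simp only [map_sub, map_pow, map_mul, map_ofNat] at hrel'
  have hD' : Int.castRingHom ℚ D ≠ 0 := by
    rw [Ne, map_eq_zero_iff _ hinj]
    exact hD
  have h := fam_relation (k := ℚ) (by norm_num) _ _ _ (Int.castRingHom ℚ t) hrel' hD'
  simp only [map_sub, map_pow, map_mul, map_ofNat, map_famC4, map_famC6, map_famD]
  exact h

end Fermat.Agent.S52
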