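import Fermat.Agent.S52.Sec
import Fermat.Agent.S52.FamAlg
import Fermat.Agent.S52.RG.Congr

/-!
# S52 / Congr : all good fibres of the family have the same number of points mod 5
-/

set_option autoImplicit false

namespace Fermat.Agent.S52

open Polynomial

/-- auxiliary: transport along equalities of the coefficients. -/
theorem Congr_transport {K : Type*} [Field K] [DecidableEq K] {a b a' b' : K} (ha : a = a')
    (hb : b = b') (h : ∃ P : (short a' b').Point, P ≠ 0 ∧ 5 • P = 0) :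
    ∃ P : (short a b).Point, P ≠ 0 ∧ 5 • P = 0 := by
  subst ha hb
  exact h

/-- auxiliary: the nonzero `5`-torsion section over `𝔽̄_ℓ(τ)`. -/
theorem Congr_exists_section (ℓ : ℕ) [Fact ℓ.Prime] (h30 : (30 : ZMod ℓ) ≠ 0) (c4 c6 D : ZMod ℓ)
    (hrel : c4 ^ 3 - c6 ^ 2 = 1728 * D) (hD : D ≠ 0)
    [DecidableEq (RatFunc (AlgebraicClosure (ZMod ℓ)))] :
    ∃ P : (RG_EK (RatFunc (AlgebraicClosure (ZMod ℓ)))
        (RG_bc ℓ (AlgebraicClosure (ZMod ℓ)) (-27 * famC4 (C c4) (C c6) (C D) X))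
        (RG_bc ℓ (AlgebraicClosure (ZMod ℓ)) (-54 * famC6 (C c4) (C c6) (C D) X))).Point,
      P ≠ 0 ∧ 5 • P = 0 := by
  set Kb := AlgebraicClosure (ZMod ℓ) with hKb
  set φ : ZMod ℓ →+* Kb := algebraMap (ZMod ℓ) Kb with hφ
  set ι : Kb →+* RatFunc Kb := algebraMap Kb (RatFunc Kb) with hι
  have h30b : (30 : Kb) ≠ 0 := by
    have : φ 30 ≠ 0 := by rwa [Ne, map_eq_zero]
    rwa [map_ofNat] at this
  have h30K : (30 : RatFunc Kb) ≠ 0 := by
    have : ι 30 ≠ 0 := by rwa [Ne, map_eq_zero]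
    rwa [map_ofNat] at this
  have h2b : (2 : Kb) ≠ 0 := by
    intro h
    apply h30b
    have : (30 : Kb) = 2 * 15 := by norm_num
    rw [this, h, zero_mul]
  obtain ⟨X₀, Y₀, k4, k6, kd⟩ := exists_klein_point h30b (φ c4) (φ c6) (φ D)
    (by rw [← map_pow, ← map_pow, ← map_sub, hrel, map_mul, map_ofNat])
    (by rwa [Ne, map_eq_zero])
  obtain ⟨s, hs⟩ := IsAlgClosed.exists_pow_nat_eq (5 : Kb) (n := 2) (by norm_num)
  obtain ⟨c, hc'⟩ : ∃ c : Kb, c ^ 2 + c - 1 = 0 := by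
    refine ⟨(-1 + s) / 2, ?_⟩
    have e1 : 2 * ((-1 + s) / 2) = -1 + s := mul_div_cancel₀ _ h2b
    generalize (-1 + s) / 2 = c at e1
    have h4 : (4 : Kb) ≠ 0 := by
      have : (4 : Kb) = 2 * 2 := by norm_num
      rw [this]
      exact mul_ne_zero h2b h2b
    have e2 : (4 : Kb) * (c ^ 2 + c - 1) = 0 := by
      have e3 : s = 2 * c + 1 := by linear_combination -e1
      rw [e3] at hs
      linear_combination hs
    exact (mul_eq_zero.1 e2).resolve_left h4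
  obtain ⟨e, he⟩ := IsAlgClosed.exists_pow_nat_eq (18 + 11 * c : Kb) (n := 2) (by norm_num)
  -- the ring homomorphism `(ZMod ℓ)[X] → K`
  set ψ : (ZMod ℓ)[X] →+* RatFunc Kb :=
    (algebraMap Kb[X] (RatFunc Kb)).comp (mapRingHom φ) with hψ
  have ψC : ∀ a : ZMod ℓ, ψ (C a) = ι (φ a) := by
    intro a
    rw [hψ, RingHom.comp_apply, coe_mapRingHom, map_C, hι, RatFunc.algebraMap_C]
    rfl
  have ψX : ψ X = RatFunc.X := by
    rw [hψ, RingHom.comp_apply, coe_mapRingHom, map_X, RatFunc.algebraMap_X]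
  have ψinj : Function.Injective ψ :=
    (RatFunc.algebraMap_injective Kb).comp (Polynomial.map_injective _ φ.injective)
  have m4 : kC4 (ι X₀) (ι Y₀) = ι (φ c4) := by
    rw [← k4]
    simp only [kC4, map_add, map_sub, map_mul, map_pow, map_ofNat]
  have m6 : kC6 (ι X₀) (ι Y₀) = ι (φ c6) := by
    rw [← k6]
    simp only [kC6, map_add, map_sub, map_mul, map_pow, map_ofNat]
  have md : kD (ι X₀) (ι Y₀) = ι (φ D) := by
    rw [← kd]
    simp only [kD, kphi, map_add, map_sub, map_mul, map_pow, map_ofNat, map_neg]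
  have eA : algebraMap Kb[X] (RatFunc Kb) (RG_bc ℓ Kb (-27 * famC4 (C c4) (C c6) (C D) X)) =
      -27 * kC4 (kX (ι X₀) (ι Y₀) RatFunc.X) (kY (ι X₀) (ι Y₀) RatFunc.X) := by
    have e1 : algebraMap Kb[X] (RatFunc Kb) (RG_bc ℓ Kb (-27 * famC4 (C c4) (C c6) (C D) X)) =
        ψ (-27 * famC4 (C c4) (C c6) (C D) X) := rfl
    rw [e1, map_mul, map_neg, map_ofNat, map_famC4, ψC, ψC, ψC, ψX, kC4_line, m4, m6, md]
  have eB : algebraMap Kb[X] (RatFunc Kb) (RG_bc ℓ Kb (-54 * famC6 (C c4) (C c6) (C D) X)) =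
      -54 * kC6 (kX (ι X₀) (ι Y₀) RatFunc.X) (kY (ι X₀) (ι Y₀) RatFunc.X) := by
    have e1 : algebraMap Kb[X] (RatFunc Kb) (RG_bc ℓ Kb (-54 * famC6 (C c4) (C c6) (C D) X)) =
        ψ (-54 * famC6 (C c4) (C c6) (C D) X) := rfl
    rw [e1, map_mul, map_neg, map_ofNat, map_famC6, ψC, ψC, ψC, ψX, kC6_line, m4, m6, md]
  have hDK : kD (kX (ι X₀) (ι Y₀) RatFunc.X) (kY (ι X₀) (ι Y₀) RatFunc.X) ≠ 0 := by
    rw [kD_line, m4, m6, md]
    refine mul_ne_zero ?_ (pow_ne_zero _ ?_)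
    · rw [Ne, map_eq_zero, map_eq_zero]; exact hD
    · have hpoly : famD (C c4) (C c6) (C D) (X : (ZMod ℓ)[X]) ≠ 0 := by
        intro h0
        have := map_famD (evalRingHom (0 : ZMod ℓ)) (C c4) (C c6) (C D) X
        rw [h0, map_zero] at this
        simp only [coe_evalRingHom, eval_C, eval_X, famD_zero] at this
        exact zero_ne_one this
      have := (map_ne_zero_iff ψ ψinj).2 hpoly
      rwa [map_famD, ψC, ψC, ψC, ψX] at this
  exact Congr_transport eA eB (sec_point h30K (ι c) (ι e) _ _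
    (by rw [← map_pow, ← map_add, ← map_one ι, ← map_sub, hc', map_zero])
    (by rw [← map_pow, he, map_add, map_mul, map_ofNat, map_ofNat]) hDK)

/-- PROOF.  `kb = AlgebraicClosure (ZMod ℓ)`, `(X₀, Y₀)` a Klein point of (the images of) `c4, c6, D`
(`exists_klein_point`), `c, e ∈ kb` roots of `c² + c - 1`, `e² = 18 + 11 c`.  `K = RatFunc kb`, `τ = RatFunc.X`.
`A = -27 * famC4 (C c4) (C c6) (C D) X`, `B = -54 * famC6 (C c4) (C c6) (C D) X : (ZMod ℓ)[X]`.
`sec_point` in `K` at `(kX X₀ Y₀ τ, kY X₀ Y₀ τ)` (constants mapped to `K`), `kC4_line`, `kC6_line`, `kD_line`, `map_fam*`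
identify the curve with `RG_EK K (RG_bc ℓ kb A) (RG_bc ℓ kb B)`; `kD ≠ 0` in `K` because `famD (..) τ ≠ 0`
(it is the image of a polynomial with value `1` at `0`).  Then `RG_five_dvd_card_sub` with `t₀ = 0`, `t₁ = t`:
`A.eval t = -27 * famC4 c4 c6 D t` (`map_famC4 (evalRingHom t)`), `fam*_zero`;
`4 A(t)³ + 27 B(t)² = -78732 * 1728 * D * famD(t)^5` by `fam_relation`. -/
theorem fam_congr (ℓ : ℕ) [Fact ℓ.Prime] (hℓ : 5 < ℓ) (c4 c6 D t : ZMod ℓ)
    (hrel : c4 ^ 3 - c6 ^ 2 = 1728 * D) (hD : D ≠ 0) (ht : famD c4 c6 D t ≠ 0) :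
    (5 : ℤ) ∣ (Nat.card (short (-27 * c4) (-54 * c6)).Point : ℤ)
      - (Nat.card (short (-27 * famC4 c4 c6 D t) (-54 * famC6 c4 c6 D t)).Point : ℤ) := by
  classical
  have hp : ℓ.Prime := Fact.out
  have hn : ∀ n : ℕ, 0 < n → n ≤ 5 → ((n : ℕ) : ZMod ℓ) ≠ 0 := by
    intro n h0 h5 h
    rw [ZMod.natCast_eq_zero_iff] at h
    have := Nat.le_of_dvd h0 h
    omega
  have h2 : (2 : ZMod ℓ) ≠ 0 := by exact_mod_cast hn 2 (by norm_num) (by norm_num)
  have h3 : (3 : ZMod ℓ) ≠ 0 := by exact_mod_cast hn 3 (by norm_num) (by norm_num)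
  have h5 : (5 : ZMod ℓ) ≠ 0 := by exact_mod_cast hn 5 (by norm_num) (by norm_num)
  have h30 : (30 : ZMod ℓ) ≠ 0 := by
    have : (30 : ZMod ℓ) = 2 * 3 * 5 := by norm_num
    rw [this]
    exact mul_ne_zero (mul_ne_zero h2 h3) h5
  have hconst : (78732 * 1728 : ZMod ℓ) ≠ 0 := by
    have : (78732 * 1728 : ZMod ℓ) = 2 ^ 8 * 3 ^ 12 := by norm_num
    rw [this]
    exact mul_ne_zero (pow_ne_zero _ h2) (pow_ne_zero _ h3)
  -- the two polynomials
  set A : (ZMod ℓ)[X] := -27 * famC4 (C c4) (C c6) (C D) X with hA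
  set B : (ZMod ℓ)[X] := -54 * famC6 (C c4) (C c6) (C D) X with hB
  have evA : ∀ s : ZMod ℓ, A.eval s = -27 * famC4 c4 c6 D s := by
    intro s
    have := map_famC4 (evalRingHom s) (C c4) (C c6) (C D) X
    simp only [coe_evalRingHom, eval_C, eval_X] at this
    rw [hA, eval_mul, this]
    simp
  have evB : ∀ s : ZMod ℓ, B.eval s = -54 * famC6 c4 c6 D s := by
    intro s
    have := map_famC6 (evalRingHom s) (C c4) (C c6) (C D) X
    simp only [coe_evalRingHom, eval_C, eval_X] at this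
    rw [hB, eval_mul, this]
    simp
  have hdisc : ∀ s : ZMod ℓ, famD c4 c6 D s ≠ 0 →
      4 * (A.eval s) ^ 3 + 27 * (B.eval s) ^ 2 ≠ 0 := by
    intro s hs
    have hr := fam_relation h30 c4 c6 D s hrel hD
    have e : 4 * (A.eval s) ^ 3 + 27 * (B.eval s) ^ 2 =
        -((78732 * 1728) * (D * famD c4 c6 D s ^ 5)) := by
      rw [evA, evB]
      linear_combination (-78732 : ZMod ℓ) * hr
    rw [e, neg_ne_zero]
    exact mul_ne_zero hconst (mul_ne_zero hD (pow_ne_zero _ hs))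
  obtain ⟨P, hP0, hP5⟩ := Congr_exists_section ℓ h30 c4 c6 D hrel hD
  have h := RG_five_dvd_card_sub ℓ hℓ A B (kb := AlgebraicClosure (ZMod ℓ)) P hP0 hP5 0 t
    (hdisc 0 (by rw [famD_zero]; exact one_ne_zero)) (hdisc t ht)
  rw [evA, evB, evA, evB, famC4_zero, famC6_zero] at h
  exact h

end Fermat.Agent.S52
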