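import Fermat.Agent.S52.FamAlg

/-!
# S52 / Model : an integral Weierstrass model of the member `t` of the family
-/

set_option autoImplicit false

namespace Fermat.Agent.S52

/-- PROOF.  `t = 1728 m s`.  `famC4 .. t = c₄ + t P₄`, `famC6 .. t = c₆ + t P₆` (`fam*_sub_dvd` with `t' = 0`, `fam*_zero`).
`a₄' = a₄ - 36 m s P₄`, `a₆' = a₆ - 3 b₂ m s P₄ - 2 m s P₆`, same `a₁, a₂, a₃`.  Then `b₂' = b₂`,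
`b₄' = b₄ - 72 m s P₄`, `c₄' = c₄ + 1728 m s P₄`, `b₆' = b₆ - 12 b₂ m s P₄ - 8 m s P₆`,
`c₆' = c₆ + 36 b₂ (b₄' - b₄) - 216 (b₆' - b₆) = c₆ + 1728 m s P₆`.
`Δ'`: `1728 Δ' = c₄'³ - c₆'²` (`WeierstrassCurve.c_relation`) `= 1728 Δ famD⁵` (`fam_relation_int`). -/
theorem exists_model (W : WeierstrassCurve ℤ) (hΔ : W.Δ ≠ 0) (m t : ℤ) (ht : 1728 * m ∣ t) :
    ∃ W' : WeierstrassCurve ℤ, W'.a₁ = W.a₁ ∧ W'.a₂ = W.a₂ ∧ W'.a₃ = W.a₃ ∧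
      m ∣ W'.a₄ - W.a₄ ∧ m ∣ W'.a₆ - W.a₆ ∧
      W'.c₄ = famC4 W.c₄ W.c₆ W.Δ t ∧ W'.c₆ = famC6 W.c₄ W.c₆ W.Δ t ∧
      W'.Δ = W.Δ * famD W.c₄ W.c₆ W.Δ t ^ 5 := by
  obtain ⟨s, rfl⟩ := ht
  obtain ⟨P4, hP4⟩ := famC4_sub_dvd W.c₄ W.c₆ W.Δ (1728 * m * s) 0
  obtain ⟨P6, hP6⟩ := famC6_sub_dvd W.c₄ W.c₆ W.Δ (1728 * m * s) 0
  rw [famC4_zero, sub_zero] at hP4
  rw [famC6_zero, sub_zero] at hP6
  have h4 : (⟨W.a₁, W.a₂, W.a₃, W.a₄ - 36 * m * s * P4,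
      W.a₆ - 3 * W.b₂ * m * s * P4 - 2 * m * s * P6⟩ : WeierstrassCurve ℤ).c₄
      = famC4 W.c₄ W.c₆ W.Δ (1728 * m * s) := by
    rw [eq_add_of_sub_eq hP4]
    simp only [WeierstrassCurve.c₄, WeierstrassCurve.b₂, WeierstrassCurve.b₄]
    ring
  have h6 : (⟨W.a₁, W.a₂, W.a₃, W.a₄ - 36 * m * s * P4,
      W.a₆ - 3 * W.b₂ * m * s * P4 - 2 * m * s * P6⟩ : WeierstrassCurve ℤ).c₆
      = famC6 W.c₄ W.c₆ W.Δ (1728 * m * s) := by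
    rw [eq_add_of_sub_eq hP6]
    simp only [WeierstrassCurve.c₆, WeierstrassCurve.b₂, WeierstrassCurve.b₄,
      WeierstrassCurve.b₆]
    ring
  refine ⟨⟨W.a₁, W.a₂, W.a₃, W.a₄ - 36 * m * s * P4,
      W.a₆ - 3 * W.b₂ * m * s * P4 - 2 * m * s * P6⟩, rfl, rfl, rfl, ?_, ?_, h4, h6, ?_⟩
  · exact ⟨-(36 * s * P4), by ring⟩
  · exact ⟨-(3 * W.b₂ * s * P4 + 2 * s * P6), by ring⟩
  · have h1 := WeierstrassCurve.c_relation (⟨W.a₁, W.a₂, W.a₃, W.a₄ - 36 * m * s * P4,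
      W.a₆ - 3 * W.b₂ * m * s * P4 - 2 * m * s * P6⟩ : WeierstrassCurve ℤ)
    rw [h4, h6, fam_relation_int W.c₄ W.c₆ W.Δ (1728 * m * s) W.c_relation.symm hΔ] at h1
    exact mul_left_cancel₀ (by norm_num) h1

end Fermat.Agent.S52
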