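import Fermat.Agent.S52.Short
import Fermat.Agent.EL.VC
import Fermat.Prelude.Def_FLTPrelim_Modularity

/-!
# S52 / Bridge : `a_ℓ` of an integral model through the short model, `ℓ ≥ 5`
-/

set_option autoImplicit false

namespace Fermat.Agent.S52

/-- auxiliary: the change of variables to the short model. -/
theorem Bridge_smul_eq_short {F : Type*} [Field F] (V : WeierstrassCurve F) (h2 : (2 : F) ≠ 0)
    (h3 : (3 : F) ≠ 0) :
    ∃ C : WeierstrassCurve.VariableChange F, C • V = short (-27 * V.c₄) (-54 * V.c₆) := by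
  have h6 : (6 : F) ≠ 0 := by
    have : (6 : F) = 2 * 3 := by norm_num
    rw [this]; exact mul_ne_zero h2 h3
  refine ⟨⟨(Units.mk0 6 h6)⁻¹, -V.b₂ / 12, -V.a₁ / 2, V.a₁ * V.b₂ / 24 - V.a₃ / 2⟩, ?_⟩
  have h12 : (12 : F) ≠ 0 := by
    have : (12 : F) = 2 * 6 := by norm_num
    rw [this]; exact mul_ne_zero h2 h6
  have h24 : (24 : F) ≠ 0 := by
    have : (24 : F) = 2 * 12 := by norm_num
    rw [this]; exact mul_ne_zero h2 h12
  ext
  · rw [WeierstrassCurve.variableChange_a₁]
    simp only [inv_inv, Units.val_mk0, short]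
    field_simp
    ring
  · rw [WeierstrassCurve.variableChange_a₂]
    simp only [inv_inv, Units.val_mk0, short, WeierstrassCurve.b₂]
    field_simp
    ring
  · rw [WeierstrassCurve.variableChange_a₃]
    simp only [inv_inv, Units.val_mk0, short, WeierstrassCurve.b₂]
    field_simp
    ring
  · rw [WeierstrassCurve.variableChange_a₄]
    simp only [inv_inv, Units.val_mk0, short, WeierstrassCurve.c₄, WeierstrassCurve.b₂,
      WeierstrassCurve.b₄]
    field_simp
    ring
  · rw [WeierstrassCurve.variableChange_a₆]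
    simp only [inv_inv, Units.val_mk0, short, WeierstrassCurve.c₆, WeierstrassCurve.b₂,
      WeierstrassCurve.b₄, WeierstrassCurve.b₆]
    field_simp
    ring

/-- auxiliary: same number of points. -/
theorem Bridge_card_short {F : Type*} [Field F] (V : WeierstrassCurve F) (h2 : (2 : F) ≠ 0)
    (h3 : (3 : F) ≠ 0) :
    Nat.card V.toAffine.Point = Nat.card (short (-27 * V.c₄) (-54 * V.c₆)).Point := by
  obtain ⟨C, hC⟩ := Bridge_smul_eq_short V h2 h3
  rw [← hC]
  exact (Nat.card_congr (Equiv.ofBijective (EL.vcFun V C) (EL.vcFun_bijective V C))).symm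

/-- over `ZMod ℓ`, `ℓ ≥ 5`, the change of variables `x = (X - 3 b₂)/36`, `y = (Y - 108 a₁ x' ...)/216` is a
bijection between the nonsingular points of `W mod ℓ` and of `Y² = X³ - 27 c₄ X - 54 c₆`
(`WeierstrassCurve.VariableChange`, `Fermat.Agent.EL.VC`: `vcFun_bijective`; or a direct `Equiv`). -/
theorem apOfModel_eq_short (W : WeierstrassCurve ℤ) (ℓ : ℕ) [Fact ℓ.Prime] (hℓ : 5 ≤ ℓ) :
    W.apOfModel ℓ = (ℓ : ℤ) + 1
      - (Nat.card (short (-27 * (W.c₄ : ZMod ℓ)) (-54 * (W.c₆ : ZMod ℓ))).Point : ℤ) := by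
  have hp : ℓ.Prime := Fact.out
  have h2 : (2 : ZMod ℓ) ≠ 0 := by
    intro h
    have h1 : ((2 : ℕ) : ZMod ℓ) = 0 := by exact_mod_cast h
    rw [ZMod.natCast_eq_zero_iff] at h1
    have := Nat.le_of_dvd (by norm_num) h1
    omega
  have h3 : (3 : ZMod ℓ) ≠ 0 := by
    intro h
    have h1 : ((3 : ℕ) : ZMod ℓ) = 0 := by exact_mod_cast h
    rw [ZMod.natCast_eq_zero_iff] at h1
    have := Nat.le_of_dvd (by norm_num) h1
    omega
  have e4 : ((W.c₄ : ℤ) : ZMod ℓ) = (W.reductionMod ℓ).c₄ := by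
    rw [WeierstrassCurve.reductionMod, WeierstrassCurve.map_c₄]; rfl
  have e6 : ((W.c₆ : ℤ) : ZMod ℓ) = (W.reductionMod ℓ).c₆ := by
    rw [WeierstrassCurve.reductionMod, WeierstrassCurve.map_c₆]; rfl
  rw [e4, e6, ← Bridge_card_short (W.reductionMod ℓ) h2 h3]
  rw [WeierstrassCurve.apOfModel, WeierstrassCurve.traceOfFrobenius, WeierstrassCurve.card,
    Nat.card_zmod]

/-- congruent models have the same `a_ℓ` (`reductionMod` agree: `WeierstrassCurve.ext`). -/
theorem apOfModel_congr (W W' : WeierstrassCurve ℤ) (ℓ : ℕ) (h1 : W'.a₁ = W.a₁) (h2 : W'.a₂ = W.a₂)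
    (h3 : W'.a₃ = W.a₃) (h4 : (ℓ : ℤ) ∣ W'.a₄ - W.a₄) (h6 : (ℓ : ℤ) ∣ W'.a₆ - W.a₆) :
    W'.apOfModel ℓ = W.apOfModel ℓ := by
  have h : W'.reductionMod ℓ = W.reductionMod ℓ := by
    rw [WeierstrassCurve.reductionMod, WeierstrassCurve.reductionMod]
    ext
    · simp only [WeierstrassCurve.map_a₁, h1]
    · simp only [WeierstrassCurve.map_a₂, h2]
    · simp only [WeierstrassCurve.map_a₃, h3]
    · simp only [WeierstrassCurve.map_a₄, eq_intCast]
      exact ((ZMod.intCast_eq_intCast_iff_dvd_sub _ _ _).2 h4).symm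
    · simp only [WeierstrassCurve.map_a₆, eq_intCast]
      exact ((ZMod.intCast_eq_intCast_iff_dvd_sub _ _ _).2 h6).symm
  rw [WeierstrassCurve.apOfModel, WeierstrassCurve.apOfModel, h]

end Fermat.Agent.S52
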