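import Fermat.Agent.S52.Klein
import Fermat.Agent.S52.K.LineH
import Fermat.Agent.S52.K.LineT
import Fermat.Agent.S52.K.LineD

/-!
# S52 / K : the covariant line `w(t) = w + t J∇f(w)` in the coordinates `X = u⁵`, `Y = v⁵`
-/

set_option autoImplicit false

namespace Fermat.Agent.S52

variable {R : Type*} [CommRing R]

theorem KLine_kC4_eq (X Y : R) : kC4 X Y = -K.kh X Y := by
  simp only [kC4, K.kh]; ring

theorem KLine_kC6_eq (X Y : R) : kC6 X Y = K.kT X Y := by
  simp only [kC6, K.kT]; ring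

theorem KLine_kphi_eq (X Y : R) : kphi X Y = K.kphi X Y := rfl

theorem KLine_kD_eq (X Y : R) : kD X Y = -K.kD X Y := rfl

theorem KLine_ka_eq (X Y : R) : ka X Y = K.kal X Y := rfl

theorem KLine_kb_eq (X Y : R) : kb X Y = K.kbe X Y := rfl

theorem KLine_famC4_eq (a b D t : R) : famC4 (-a) b (-D) t = -K.fH a b D t := by
  simp only [famC4, famC4_0, famC4_1, famC4_2, famC4_3, famC4_4, famC4_5, famC4_6, famC4_7, famC4_8, famC4_9, famC4_10, famC4_11, famC4_12, famC4_13, famC4_14, famC4_15, famC4_16, famC4_17, famC4_18, famC4_19, famC4_20, K.fH]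
  ring

theorem KLine_famC6_eq (a b D t : R) : famC6 (-a) b (-D) t = K.fT a b D t := by
  simp only [famC6, famC6_0, famC6_1, famC6_2, famC6_3, famC6_4, famC6_5, famC6_6, famC6_7, famC6_8, famC6_9, famC6_10, famC6_11, famC6_12, famC6_13, famC6_14, famC6_15, famC6_16, famC6_17, famC6_18, famC6_19, famC6_20, famC6_21, famC6_22, famC6_23, famC6_24, famC6_25, famC6_26, famC6_27, famC6_28, famC6_29, famC6_30, K.fT]
  ring

theorem KLine_famD_eq (a b D t : R) : famD (-a) b (-D) t = K.fD a b D t := by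
  simp only [famD, famD_0, famD_1, famD_2, famD_3, famD_4, famD_5, famD_6, famD_7, famD_8, famD_9, famD_10, famD_11, famD_12, K.fD]
  ring

theorem kC4_line (X Y t : R) :
    kC4 (kX X Y t) (kY X Y t) = famC4 (kC4 X Y) (kC6 X Y) (kD X Y) t := by
  rw [KLine_kC4_eq X Y, KLine_kC6_eq X Y, KLine_kD_eq X Y, KLine_famC4_eq, KLine_kC4_eq,
    ← K.kh_line]
  rfl

theorem kC6_line (X Y t : R) :
    kC6 (kX X Y t) (kY X Y t) = famC6 (kC4 X Y) (kC6 X Y) (kD X Y) t := by
  rw [KLine_kC4_eq X Y, KLine_kC6_eq X Y, KLine_kD_eq X Y, KLine_famC6_eq, KLine_kC6_eq,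
    ← K.kT_line]
  rfl

theorem kphi_line (X Y t : R) :
    (1 + t * ka X Y) * (1 - t * kb X Y) * kphi (kX X Y t) (kY X Y t)
      = kphi X Y * famD (kC4 X Y) (kC6 X Y) (kD X Y) t := by
  rw [KLine_kC4_eq X Y, KLine_kC6_eq X Y, KLine_kD_eq X Y, KLine_famD_eq]
  exact K.kphi_line X Y t

theorem kD_line (X Y t : R) :
    kD (kX X Y t) (kY X Y t) = kD X Y * famD (kC4 X Y) (kC6 X Y) (kD X Y) t ^ 5 := by
  have h := kphi_line X Y t
  generalize famD (kC4 X Y) (kC6 X Y) (kD X Y) t = d at h ⊢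
  have h5 : ((1 + t * ka X Y) * (1 - t * kb X Y) * kphi (kX X Y t) (kY X Y t)) ^ 5
      = (kphi X Y * d) ^ 5 := by rw [h]
  unfold kD
  generalize kphi (kX X Y t) (kY X Y t) = p at h5 ⊢
  unfold kX kY
  linear_combination (-(X * Y)) * h5

end Fermat.Agent.S52
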