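import Mathlib

/-!
# S52 / K : Klein's icosahedral forms in `X = u⁵`, `Y = v⁵` and the twisted family
-/

set_option autoImplicit false
set_option linter.unusedVariables false

namespace Fermat.Agent.S52

variable {R : Type*} [CommRing R]

/-- `f = u v φ(X, Y)`. -/
def kphi (X Y : R) : R := X ^ 2 + 11 * X * Y - Y ^ 2

/-- `c₄` of the Klein curve. -/
def kC4 (X Y : R) : R := X ^ 4 - 228 * X ^ 3 * Y + 494 * X ^ 2 * Y ^ 2 + 228 * X * Y ^ 3 + Y ^ 4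

/-- `c₆` of the Klein curve. -/
def kC6 (X Y : R) : R := X ^ 6 + 522 * X ^ 5 * Y - 10005 * X ^ 4 * Y ^ 2 - 10005 * X ^ 2 * Y ^ 4
  - 522 * X * Y ^ 5 + Y ^ 6

/-- `Δ` of the Klein curve. -/
def kD (X Y : R) : R := -(X * Y * kphi X Y ^ 5)

/-- the covariant line: `u(t) = u (1 + t a)`. -/
def ka (X Y : R) : R := X ^ 2 + 66 * X * Y - 11 * Y ^ 2

/-- the covariant line: `v(t) = v (1 - t b)`. -/
def kb (X Y : R) : R := 11 * X ^ 2 + 66 * X * Y - Y ^ 2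

/-- `X(t)`. -/
def kX (X Y t : R) : R := X * (1 + t * ka X Y) ^ 5

/-- `Y(t)`. -/
def kY (X Y t : R) : R := Y * (1 - t * kb X Y) ^ 5

/-- coefficient of `t^0` in `famD`. -/
def famD_0 (c4 c6 D : R) : R :=
  1

/-- coefficient of `t^1` in `famD`. -/
def famD_1 (c4 c6 D : R) : R :=
  0

/-- coefficient of `t^2` in `famD`. -/
def famD_2 (c4 c6 D : R) : R :=
  -66 * c4

/-- coefficient of `t^3` in `famD`. -/
def famD_3 (c4 c6 D : R) : R :=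
  -440 * c6

/-- coefficient of `t^4` in `famD`. -/
def famD_4 (c4 c6 D : R) : R :=
  -1485 * c4 ^ 2

/-- coefficient of `t^5` in `famD`. -/
def famD_5 (c4 c6 D : R) : R :=
  -3168 * c4 * c6

/-- coefficient of `t^6` in `famD`. -/
def famD_6 (c4 c6 D : R) : R :=
  -4620 * c4 ^ 3 + 18247680 * D

/-- coefficient of `t^7` in `famD`. -/
def famD_7 (c4 c6 D : R) : R :=
  -4752 * c4 ^ 2 * c6

/-- coefficient of `t^8` in `famD`. -/
def famD_8 (c4 c6 D : R) : R :=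
  -3465 * c4 ^ 4 - 109486080 * c4 * D

/-- coefficient of `t^9` in `famD`. -/
def famD_9 (c4 c6 D : R) : R :=
  -1760 * c4 ^ 3 * c6 - 243302400 * c6 * D

/-- coefficient of `t^10` in `famD`. -/
def famD_10 (c4 c6 D : R) : R :=
  -594 * c4 ^ 5 - 229920768 * c4 ^ 2 * D

/-- coefficient of `t^11` in `famD`. -/
def famD_11 (c4 c6 D : R) : R :=
  -120 * c4 ^ 4 * c6 - 106168320 * c4 * c6 * D

/-- coefficient of `t^12` in `famD`. -/
def famD_12 (c4 c6 D : R) : R :=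
  -11 * c4 ^ 6 - 19464192 * c4 ^ 3 * D + 305764761600 * D ^ 2

/-- `Δ(t) = Δ * famD(t)^5`. -/
def famD (c4 c6 D t : R) : R :=
  famD_0 c4 c6 D + famD_1 c4 c6 D * t + famD_2 c4 c6 D * t ^ 2 + famD_3 c4 c6 D * t ^ 3
    + famD_4 c4 c6 D * t ^ 4 + famD_5 c4 c6 D * t ^ 5 + famD_6 c4 c6 D * t ^ 6
    + famD_7 c4 c6 D * t ^ 7 + famD_8 c4 c6 D * t ^ 8 + famD_9 c4 c6 D * t ^ 9
    + famD_10 c4 c6 D * t ^ 10 + famD_11 c4 c6 D * t ^ 11 + famD_12 c4 c6 D * t ^ 12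

/-- coefficient of `t^0` in `famC4`. -/
def famC4_0 (c4 c6 D : R) : R :=
  c4

/-- coefficient of `t^1` in `famC4`. -/
def famC4_1 (c4 c6 D : R) : R :=
  20 * c6

/-- coefficient of `t^2` in `famC4`. -/
def famC4_2 (c4 c6 D : R) : R :=
  190 * c4 ^ 2

/-- coefficient of `t^3` in `famC4`. -/
def famC4_3 (c4 c6 D : R) : R :=
  1140 * c4 * c6

/-- coefficient of `t^4` in `famC4`. -/
def famC4_4 (c4 c6 D : R) : R :=
  4845 * c4 ^ 3 - 9849600 * D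

/-- coefficient of `t^5` in `famC4`. -/
def famC4_5 (c4 c6 D : R) : R :=
  15504 * c4 ^ 2 * c6

/-- coefficient of `t^6` in `famC4`. -/
def famC4_6 (c4 c6 D : R) : R :=
  38760 * c4 ^ 4 + 110315520 * c4 * D

/-- coefficient of `t^7` in `famC4`. -/
def famC4_7 (c4 c6 D : R) : R :=
  77520 * c4 ^ 3 * c6 + 315187200 * c6 * D

/-- coefficient of `t^8` in `famC4`. -/
def famC4_8 (c4 c6 D : R) : R :=
  125970 * c4 ^ 5 - 1946280960 * c4 ^ 2 * D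

/-- coefficient of `t^9` in `famC4`. -/
def famC4_9 (c4 c6 D : R) : R :=
  167960 * c4 ^ 4 * c6 - 13658112000 * c4 * c6 * D

/-- coefficient of `t^10` in `famC4`. -/
def famC4_10 (c4 c6 D : R) : R :=
  184756 * c4 ^ 6 - 44921530368 * c4 ^ 3 * D + 47202435072000 * D ^ 2

/-- coefficient of `t^11` in `famC4`. -/
def famC4_11 (c4 c6 D : R) : R :=
  167960 * c4 ^ 5 * c6 - 94787297280 * c4 ^ 2 * c6 * D

/-- coefficient of `t^12` in `famC4`. -/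
def famC4_12 (c4 c6 D : R) : R :=
  125970 * c4 ^ 7 - 143563829760 * c4 ^ 4 * D + 113285844172800 * c4 * D ^ 2

/-- coefficient of `t^13` in `famC4`. -/
def famC4_13 (c4 c6 D : R) : R :=
  77520 * c4 ^ 6 * c6 - 161627996160 * c4 ^ 3 * c6 * D + 174285914112000 * c6 * D ^ 2

/-- coefficient of `t^14` in `famC4`. -/
def famC4_14 (c4 c6 D : R) : R :=
  38760 * c4 ^ 8 - 137784084480 * c4 ^ 5 * D + 858358127001600 * c4 ^ 2 * D ^ 2

/-- coefficient of `t^15` in `famC4`. -/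
def famC4_15 (c4 c6 D : R) : R :=
  15504 * c4 ^ 7 * c6 - 88870182912 * c4 ^ 4 * c6 * D + 1394287312896000 * c4 * c6 * D ^ 2

/-- coefficient of `t^16` in `famC4`. -/
def famC4_16 (c4 c6 D : R) : R :=
  4845 * c4 ^ 9 - 42857579520 * c4 ^ 6 * D + 1584258959278080 * c4 ^ 3 * D ^ 2 - 3011660595855360000 * D ^ 3

/-- coefficient of `t^17` in `famC4`. -/
def famC4_17 (c4 c6 D : R) : R :=
  1140 * c4 ^ 8 * c6 - 15002910720 * c4 ^ 5 * c6 * D + 1080572667494400 * c4 ^ 2 * c6 * D ^ 2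

/-- coefficient of `t^18` in `famC4`. -/
def famC4_18 (c4 c6 D : R) : R :=
  190 * c4 ^ 10 - 3608893440 * c4 ^ 7 * D + 473621971599360 * c4 ^ 4 * D ^ 2 + 3212437968912384000 * c4 * D ^ 3

/-- coefficient of `t^19` in `famC4`. -/
def famC4_19 (c4 c6 D : R) : R :=
  20 * c4 ^ 9 * c6 - 534159360 * c4 ^ 6 * c6 * D + 117413668454400 * c4 ^ 3 * c6 * D ^ 2 + 3381513651486720000 * c6 * D ^ 3

/-- coefficient of `t^20` in `famC4`. -/
def famC4_20 (c4 c6 D : R) : R :=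
  c4 ^ 11 - 36723456 * c4 ^ 8 * D + 12915503529984 * c4 ^ 5 * D ^ 2 + 929916254158848000 * c4 ^ 2 * D ^ 3

/-- `c₄(t)`. -/
def famC4 (c4 c6 D t : R) : R :=
  famC4_0 c4 c6 D + famC4_1 c4 c6 D * t + famC4_2 c4 c6 D * t ^ 2 + famC4_3 c4 c6 D * t ^ 3
    + famC4_4 c4 c6 D * t ^ 4 + famC4_5 c4 c6 D * t ^ 5 + famC4_6 c4 c6 D * t ^ 6
    + famC4_7 c4 c6 D * t ^ 7 + famC4_8 c4 c6 D * t ^ 8 + famC4_9 c4 c6 D * t ^ 9
    + famC4_10 c4 c6 D * t ^ 10 + famC4_11 c4 c6 D * t ^ 11 + famC4_12 c4 c6 D * t ^ 12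
    + famC4_13 c4 c6 D * t ^ 13 + famC4_14 c4 c6 D * t ^ 14 + famC4_15 c4 c6 D * t ^ 15
    + famC4_16 c4 c6 D * t ^ 16 + famC4_17 c4 c6 D * t ^ 17 + famC4_18 c4 c6 D * t ^ 18
    + famC4_19 c4 c6 D * t ^ 19 + famC4_20 c4 c6 D * t ^ 20

/-- coefficient of `t^0` in `famC6`. -/
def famC6_0 (c4 c6 D : R) : R :=
  c6

/-- coefficient of `t^1` in `famC6`. -/
def famC6_1 (c4 c6 D : R) : R :=
  30 * c4 ^ 2

/-- coefficient of `t^2` in `famC6`. -/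
def famC6_2 (c4 c6 D : R) : R :=
  435 * c4 * c6

/-- coefficient of `t^3` in `famC6`. -/
def famC6_3 (c4 c6 D : R) : R :=
  4060 * c4 ^ 3 - 5011200 * D

/-- coefficient of `t^4` in `famC6`. -/
def famC6_4 (c4 c6 D : R) : R :=
  27405 * c4 ^ 2 * c6

/-- coefficient of `t^5` in `famC6`. -/
def famC6_5 (c4 c6 D : R) : R :=
  142506 * c4 ^ 4 - 81181440 * c4 * D

/-- coefficient of `t^6` in `famC6`. -/
def famC6_6 (c4 c6 D : R) : R :=
  593775 * c4 ^ 3 * c6 - 270604800 * c6 * D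

/-- coefficient of `t^7` in `famC6`. -/
def famC6_7 (c4 c6 D : R) : R :=
  2035800 * c4 ^ 5 - 6765120000 * c4 ^ 2 * D

/-- coefficient of `t^8` in `famC6`. -/
def famC6_8 (c4 c6 D : R) : R :=
  5852925 * c4 ^ 4 * c6 - 24895641600 * c4 * c6 * D

/-- coefficient of `t^9` in `famC6`. -/
def famC6_9 (c4 c6 D : R) : R :=
  14307150 * c4 ^ 6 - 38035008000 * c4 ^ 3 * D + 95599263744000 * D ^ 2

/-- coefficient of `t^10` in `famC6`. -/
def famC6_10 (c4 c6 D : R) : R :=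
  30045015 * c4 ^ 5 * c6 + 374264478720 * c4 ^ 2 * c6 * D

/-- coefficient of `t^11` in `famC6`. -/
def famC6_11 (c4 c6 D : R) : R :=
  54627300 * c4 ^ 7 + 2708438342400 * c4 ^ 4 * D - 4359326426726400 * c4 * D ^ 2

/-- coefficient of `t^12` in `famC6`. -/
def famC6_12 (c4 c6 D : R) : R :=
  86493225 * c4 ^ 6 * c6 + 11194740172800 * c4 ^ 3 * c6 * D - 7265544044544000 * c6 * D ^ 2

/-- coefficient of `t^13` in `famC6`. -/
def famC6_13 (c4 c6 D : R) : R :=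
  119759850 * c4 ^ 8 + 32579058988800 * c4 ^ 5 * D - 35964443020492800 * c4 ^ 2 * D ^ 2

/-- coefficient of `t^14` in `famC6`. -/
def famC6_14 (c4 c6 D : R) : R :=
  145422675 * c4 ^ 7 * c6 + 74381953190400 * c4 ^ 4 * c6 * D

/-- coefficient of `t^15` in `famC6`. -/
def famC6_15 (c4 c6 D : R) : R :=
  155117520 * c4 ^ 9 + 136970011100160 * c4 ^ 6 * D - 237147357613916160 * c4 ^ 3 * D ^ 2

/-- coefficient of `t^16` in `famC6`. -/
def famC6_16 (c4 c6 D : R) : R :=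
  145422675 * c4 ^ 8 * c6 + 209073598156800 * c4 ^ 5 * c6 * D - 889302591052185600 * c4 ^ 2 * c6 * D ^ 2

/-- coefficient of `t^17` in `famC6`. -/
def famC6_17 (c4 c6 D : R) : R :=
  119759850 * c4 ^ 10 + 267018203980800 * c4 ^ 7 * D - 3485281478167756800 * c4 ^ 4 * D ^ 2 + 3615799711383945216000 * c4 * D ^ 3

/-- coefficient of `t^18` in `famC6`. -/
def famC6_18 (c4 c6 D : R) : R :=
  86493225 * c4 ^ 9 * c6 + 288067468953600 * c4 ^ 6 * c6 * D - 7881662179521331200 * c4 ^ 3 * c6 * D ^ 2 + 4017555234871050240000 * c6 * D ^ 3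

/-- coefficient of `t^19` in `famC6`. -/
def famC6_19 (c4 c6 D : R) : R :=
  54627300 * c4 ^ 11 + 263137595846400 * c4 ^ 8 * D - 14246737639007846400 * c4 ^ 5 * D ^ 2 + 22138843846894682112000 * c4 ^ 2 * D ^ 3

/-- coefficient of `t^20` in `famC6`. -/
def famC6_20 (c4 c6 D : R) : R :=
  30045015 * c4 ^ 10 * c6 + 203855471677440 * c4 ^ 7 * c6 * D - 19214717810198446080 * c4 ^ 4 * c6 * D ^ 2 + 17761823143640432640000 * c4 * c6 * D ^ 3

/-- coefficient of `t^21` in `famC6`. -/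
def famC6_21 (c4 c6 D : R) : R :=
  14307150 * c4 ^ 12 + 133590358598400 * c4 ^ 9 * D - 20908591452861235200 * c4 ^ 6 * D ^ 2 + 41215887704266584883200 * c4 ^ 3 * D ^ 3 - 29230886087819683430400000 * D ^ 4

/-- coefficient of `t^22` in `famC6`. -/
def famC6_22 (c4 c6 D : R) : R :=
  5852925 * c4 ^ 11 * c6 + 73734666508800 * c4 ^ 8 * c6 * D - 17973273419159961600 * c4 ^ 5 * c6 * D ^ 2 + 23597850747979431936000 * c4 ^ 2 * c6 * D ^ 3

/-- coefficient of `t^23` in `famC6`. -/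
def famC6_23 (c4 c6 D : R) : R :=
  2035800 * c4 ^ 13 + 33996351628800 * c4 ^ 10 * D - 12476571793647206400 * c4 ^ 7 * D ^ 2 + 29446013759435204198400 * c4 ^ 4 * D ^ 3 + 54903229521470014095360000 * c4 * D ^ 4

/-- coefficient of `t^24` in `famC6`. -/
def famC6_24 (c4 c6 D : R) : R :=
  593775 * c4 ^ 12 * c6 + 12942486374400 * c4 ^ 9 * c6 * D - 6877999592688844800 * c4 ^ 6 * c6 * D ^ 2 + 11627926455526096896000 * c4 ^ 3 * c6 * D ^ 3 + 45752691267891678412800000 * c6 * D ^ 4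

/-- coefficient of `t^25` in `famC6`. -/
def famC6_25 (c4 c6 D : R) : R :=
  142506 * c4 ^ 14 + 3998272513536 * c4 ^ 11 * D - 3001181670175408128 * c4 ^ 8 * D ^ 2 + 8215692682431874203648 * c4 ^ 5 * D ^ 3 - 162422054001015458365440000 * c4 ^ 2 * D ^ 4

/-- coefficient of `t^26` in `famC6`. -/
def famC6_26 (c4 c6 D : R) : R :=
  27405 * c4 ^ 13 * c6 + 977532779520 * c4 ^ 10 * c6 * D - 1009272850407751680 * c4 ^ 7 * c6 * D ^ 2 + 2081773929940962508800 * c4 ^ 4 * c6 * D ^ 3 - 366021530143133427302400000 * c4 * c6 * D ^ 4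

/-- coefficient of `t^27` in `famC6`. -/
def famC6_27 (c4 c6 D : R) : R :=
  4060 * c4 ^ 15 + 182045871360 * c4 ^ 12 * D - 253675112528609280 * c4 ^ 9 * D ^ 2 + 788715656681336340480 * c4 ^ 6 * D ^ 3 - 357616591302809622675456000 * c4 ^ 3 * D ^ 4 + 468507558583210786947072000000 * D ^ 5

/-- coefficient of `t^28` in `famC6`. -/
def famC6_28 (c4 c6 D : R) : R :=
  435 * c4 ^ 14 * c6 + 24270243840 * c4 ^ 11 * c6 * D - 44768387043164160 * c4 ^ 8 * c6 * D ^ 2 + 108850924441357516800 * c4 ^ 5 * c6 * D ^ 3 - 191144576852525234257920000 * c4 ^ 2 * c6 * D ^ 4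

/-- coefficient of `t^29` in `famC6`. -/
def famC6_29 (c4 c6 D : R) : R :=
  30 * c4 ^ 16 + 2063335680 * c4 ^ 13 * D - 4963496574320640 * c4 ^ 10 * D ^ 2 + 17260936434013962240 * c4 ^ 7 * D ^ 3 - 55089045049224669954048000 * c4 ^ 4 * D ^ 4 - 77546078662048681977446400000 * c4 * D ^ 5

/-- coefficient of `t^30` in `famC6`. -/
def famC6_30 (c4 c6 D : R) : R :=
  c4 ^ 15 * c6 + 84063744 * c4 ^ 12 * c6 * D - 259826663817216 * c4 ^ 9 * c6 * D ^ 2 + 727025435069644800 * c4 ^ 6 * c6 * D ^ 3 - 6731430439413948088320000 * c4 ^ 3 * c6 * D ^ 4 - 51697385774699121318297600000 * c6 * D ^ 5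

/-- `c₆(t)`. -/
def famC6 (c4 c6 D t : R) : R :=
  famC6_0 c4 c6 D + famC6_1 c4 c6 D * t + famC6_2 c4 c6 D * t ^ 2 + famC6_3 c4 c6 D * t ^ 3
    + famC6_4 c4 c6 D * t ^ 4 + famC6_5 c4 c6 D * t ^ 5 + famC6_6 c4 c6 D * t ^ 6
    + famC6_7 c4 c6 D * t ^ 7 + famC6_8 c4 c6 D * t ^ 8 + famC6_9 c4 c6 D * t ^ 9
    + famC6_10 c4 c6 D * t ^ 10 + famC6_11 c4 c6 D * t ^ 11 + famC6_12 c4 c6 D * t ^ 12
    + famC6_13 c4 c6 D * t ^ 13 + famC6_14 c4 c6 D * t ^ 14 + famC6_15 c4 c6 D * t ^ 15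
    + famC6_16 c4 c6 D * t ^ 16 + famC6_17 c4 c6 D * t ^ 17 + famC6_18 c4 c6 D * t ^ 18
    + famC6_19 c4 c6 D * t ^ 19 + famC6_20 c4 c6 D * t ^ 20 + famC6_21 c4 c6 D * t ^ 21
    + famC6_22 c4 c6 D * t ^ 22 + famC6_23 c4 c6 D * t ^ 23 + famC6_24 c4 c6 D * t ^ 24
    + famC6_25 c4 c6 D * t ^ 25 + famC6_26 c4 c6 D * t ^ 26 + famC6_27 c4 c6 D * t ^ 27
    + famC6_28 c4 c6 D * t ^ 28 + famC6_29 c4 c6 D * t ^ 29 + famC6_30 c4 c6 D * t ^ 30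

/-- the `t`-derivative of `famD`. -/
def famDd (c4 c6 D t : R) : R :=
  1 * famD_1 c4 c6 D + 2 * famD_2 c4 c6 D * t + 3 * famD_3 c4 c6 D * t ^ 2
    + 4 * famD_4 c4 c6 D * t ^ 3 + 5 * famD_5 c4 c6 D * t ^ 4 + 6 * famD_6 c4 c6 D * t ^ 5
    + 7 * famD_7 c4 c6 D * t ^ 6 + 8 * famD_8 c4 c6 D * t ^ 7 + 9 * famD_9 c4 c6 D * t ^ 8
    + 10 * famD_10 c4 c6 D * t ^ 9 + 11 * famD_11 c4 c6 D * t ^ 10 + 12 * famD_12 c4 c6 D * t ^ 11

/-- the second `t`-derivative of `famD`. -/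
def famDdd (c4 c6 D t : R) : R :=
  2 * famD_2 c4 c6 D + 6 * famD_3 c4 c6 D * t + 12 * famD_4 c4 c6 D * t ^ 2
    + 20 * famD_5 c4 c6 D * t ^ 3 + 30 * famD_6 c4 c6 D * t ^ 4 + 42 * famD_7 c4 c6 D * t ^ 5
    + 56 * famD_8 c4 c6 D * t ^ 6 + 72 * famD_9 c4 c6 D * t ^ 7 + 90 * famD_10 c4 c6 D * t ^ 8
    + 110 * famD_11 c4 c6 D * t ^ 9 + 132 * famD_12 c4 c6 D * t ^ 10

theorem kC_relation (X Y : R) : kC4 X Y ^ 3 - kC6 X Y ^ 2 = 1728 * kD X Y := by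
  unfold kC4 kC6 kD kphi
  ring

end Fermat.Agent.S52
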