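import Mathlib

/-!
# S52 : short Weierstrass curves `y² = x³ + A x + B` (shared definitions)
-/

set_option autoImplicit false

namespace Fermat.Agent.S52

open WeierstrassCurve

/-- The short Weierstrass curve `y² = x³ + A x + B`. -/
def short {F : Type*} [CommRing F] (A B : F) : WeierstrassCurve.Affine F := ⟨0, 0, 0, A, B⟩

section ring
variable {F : Type*} [CommRing F] (A B : F)

@[simp] lemma short_a₁ : (short A B).a₁ = 0 := rfl
@[simp] lemma short_a₂ : (short A B).a₂ = 0 := rfl
@[simp] lemma short_a₃ : (short A B).a₃ = 0 := rfl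
@[simp] lemma short_a₄ : (short A B).a₄ = A := rfl
@[simp] lemma short_a₆ : (short A B).a₆ = B := rfl

lemma short_b₂ : (short A B).b₂ = 0 := by simp [WeierstrassCurve.b₂]
lemma short_b₄ : (short A B).b₄ = 2 * A := by simp [WeierstrassCurve.b₄]
lemma short_b₆ : (short A B).b₆ = 4 * B := by simp [WeierstrassCurve.b₆]
lemma short_b₈ : (short A B).b₈ = - A ^ 2 := by simp [WeierstrassCurve.b₈]
lemma short_c₄ : (short A B).c₄ = -48 * A := by
  simp [WeierstrassCurve.c₄, short_b₂, short_b₄]; ring
lemma short_c₆ : (short A B).c₆ = -864 * B := by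
  simp [WeierstrassCurve.c₆, short_b₂, short_b₄, short_b₆]; ring
lemma short_Δ : (short A B).Δ = -16 * (4 * A ^ 3 + 27 * B ^ 2) := by
  simp [WeierstrassCurve.Δ, short_b₂, short_b₄, short_b₆, short_b₈]; ring

lemma short_equation (x y : F) : (short A B).Equation x y ↔ y ^ 2 = x ^ 3 + A * x + B := by
  rw [WeierstrassCurve.Affine.equation_iff]; simp

lemma short_negY (x y : F) : (short A B).negY x y = -y := by
  simp [WeierstrassCurve.Affine.negY]

lemma short_map {L : Type*} [CommRing L] (σ : F →+* L) :
    (short A B).map σ = short (σ A) (σ B) := by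
  ext <;> simp [short, WeierstrassCurve.map]

end ring

section field
variable {F : Type*} [Field F] (A B : F)

lemma short_nonsingular_of_equation (hΔ : 4 * A ^ 3 + 27 * B ^ 2 ≠ 0) (h2 : (2 : F) ≠ 0)
    {x y : F} (h : y ^ 2 = x ^ 3 + A * x + B) : (short A B).Nonsingular x y := by
  apply WeierstrassCurve.Affine.equation_iff_nonsingular_of_Δ_ne_zero ?_ |>.mp
    ((short_equation A B x y).mpr h)
  rw [short_Δ]
  have h16 : (16 : F) ≠ 0 := by
    have : (16 : F) = 2 ^ 4 := by norm_num
    rw [this]; exact pow_ne_zero _ h2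
  intro h0
  apply hΔ
  have : (16 : F) * (4 * A ^ 3 + 27 * B ^ 2) = 0 := by linear_combination -h0
  exact (mul_eq_zero.mp this).resolve_left h16

/-- The point `(x, y)` of `short A B`. -/
def mkPt (hΔ : 4 * A ^ 3 + 27 * B ^ 2 ≠ 0) (h2 : (2 : F) ≠ 0)
    (x y : F) (h : y ^ 2 = x ^ 3 + A * x + B) : (short A B).Point :=
  .some x y (short_nonsingular_of_equation A B hΔ h2 h)

variable {L : Type*} [Field L] [DecidableEq F] [DecidableEq L]

omit [DecidableEq F] [DecidableEq L] in
lemma short_map_nonsingular (σ : F →+* L) {x y : F} (h : (short A B).Nonsingular x y) :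
    (short (σ A) (σ B)).Nonsingular (σ x) (σ y) := by
  have := (WeierstrassCurve.Affine.map_nonsingular (W := short A B) (f := σ) σ.injective x y).mpr h
  rwa [short_map] at this

/-- A field homomorphism induces a group homomorphism on points of short Weierstrass curves. -/
noncomputable def mapShort (σ : F →+* L) : (short A B).Point →+ (short (σ A) (σ B)).Point where
  toFun P := match P with
    | 0 => 0
    | .some x y h => .some (σ x) (σ y) (short_map_nonsingular A B σ h)
  map_zero' := rfl
  map_add' := by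
    rintro (_ | ⟨x₁, y₁, h₁⟩) (_ | ⟨x₂, y₂, h₂⟩)
    any_goals rfl
    have hneg : ∀ x y : F, (short (σ A) (σ B)).negY (σ x) (σ y) = σ ((short A B).negY x y) := by
      intro x y; simp
    have hslope : (short (σ A) (σ B)).slope (σ x₁) (σ x₂) (σ y₁) (σ y₂)
        = σ ((short A B).slope x₁ x₂ y₁ y₂) := by
      have := WeierstrassCurve.Affine.map_slope (W := short A B) σ x₁ x₂ y₁ y₂
      rwa [short_map] at this
    have haddX : ∀ ℓ : F, (short (σ A) (σ B)).addX (σ x₁) (σ x₂) (σ ℓ)
        = σ ((short A B).addX x₁ x₂ ℓ) := by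
      intro ℓ
      have := WeierstrassCurve.Affine.map_addX (W' := short A B) σ x₁ x₂ ℓ
      rwa [short_map] at this
    have haddY : ∀ ℓ : F, (short (σ A) (σ B)).addY (σ x₁) (σ x₂) (σ y₁) (σ ℓ)
        = σ ((short A B).addY x₁ x₂ y₁ ℓ) := by
      intro ℓ
      have := WeierstrassCurve.Affine.map_addY (W' := short A B) σ x₁ y₁ x₂ ℓ
      rwa [short_map] at this
    by_cases hxy : x₁ = x₂ ∧ y₁ = (short A B).negY x₂ y₂
    · rw [WeierstrassCurve.Affine.Point.add_of_Y_eq hxy.left hxy.right]
      exact (WeierstrassCurve.Affine.Point.add_of_Y_eq (congr_arg σ hxy.left)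
        (by rw [hxy.right, hneg])).symm
    · rw [WeierstrassCurve.Affine.Point.add_some hxy]
      have hxy' : ¬(σ x₁ = σ x₂ ∧ σ y₁ = (short (σ A) (σ B)).negY (σ x₂) (σ y₂)) := by
        rintro ⟨h1, h2⟩
        exact hxy ⟨σ.injective h1, σ.injective (by rw [h2, hneg])⟩
      refine Eq.trans ?_ (WeierstrassCurve.Affine.Point.add_some hxy').symm
      simp only [hslope, haddX, haddY]

@[simp] lemma mapShort_zero (σ : F →+* L) : mapShort A B σ 0 = 0 := rfl

@[simp] lemma mapShort_some (σ : F →+* L) {x y : F} (h : (short A B).Nonsingular x y) :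
    mapShort A B σ (.some x y h) = .some (σ x) (σ y) (short_map_nonsingular A B σ h) := rfl

lemma mapShort_injective (σ : F →+* L) : Function.Injective (mapShort A B σ) := by
  rintro (_ | ⟨x₁, y₁, h₁⟩) (_ | ⟨x₂, y₂, h₂⟩) h
  · rfl
  · exact absurd h (by simp [← WeierstrassCurve.Affine.Point.zero_def])
  · exact absurd h (by simp [← WeierstrassCurve.Affine.Point.zero_def])
  · simp only [mapShort_some, WeierstrassCurve.Affine.Point.some.injEq] at h
    simp only [WeierstrassCurve.Affine.Point.some.injEq]
    exact ⟨σ.injective h.1, σ.injective h.2⟩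


/-- Variant of `mapShort` with prescribed target coefficients. -/
noncomputable def mapShort' (σ : F →+* L) {A B : F} {A' B' : L} (hA : σ A = A') (hB : σ B = B') :
    (short A B).Point →+ (short A' B').Point := by
  subst hA hB; exact mapShort A B σ

omit [DecidableEq F] [DecidableEq L] in
lemma short_map_nonsingular' (σ : F →+* L) {A B : F} {A' B' : L} (hA : σ A = A') (hB : σ B = B')
    {x y : F} (h : (short A B).Nonsingular x y) : (short A' B').Nonsingular (σ x) (σ y) := by
  subst hA hB; exact short_map_nonsingular A B σ h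

@[simp] lemma mapShort'_zero (σ : F →+* L) {A B : F} {A' B' : L} (hA : σ A = A') (hB : σ B = B') :
    mapShort' σ hA hB 0 = 0 := map_zero _

@[simp] lemma mapShort'_some (σ : F →+* L) {A B : F} {A' B' : L} (hA : σ A = A') (hB : σ B = B')
    {x y : F} (h : (short A B).Nonsingular x y) :
    mapShort' σ hA hB (.some x y h) = .some (σ x) (σ y) (short_map_nonsingular' σ hA hB h) := by
  subst hA hB; rfl

lemma mapShort'_injective (σ : F →+* L) {A B : F} {A' B' : L} (hA : σ A = A') (hB : σ B = B') :
    Function.Injective (mapShort' σ hA hB) := by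
  subst hA hB; exact mapShort_injective A B σ

end field

end Fermat.Agent.S52
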