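import Fermat.Agent.S52.SecRing
import Fermat.Agent.S52.Short
import Fermat.Agent.S52.RG.Int5

/-!
# S52 / Sec : the universal 5-torsion point of the Klein curve `y² = x³ - 27 kC4 x - 54 kC6`
-/

set_option autoImplicit false

namespace Fermat.Agent.S52

/-- the 5-torsion point.  `x₀ = sxi / 5`, `y₀ = 108 * e * sg / 5`; equation from `sec_eq_ring`;
`4 A³ + 27 B² = -78732 * 1728 * kD ≠ 0` (`kC_relation`); `mkPt`; `S51.five_nsmul_eq_zero_of_p5`, `RG_p5_short`,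
`p5s_smul` with `l = 5`, `sec_p5_ring`. -/
theorem sec_point {K : Type*} [Field K] [DecidableEq K] (h30 : (30 : K) ≠ 0) (c e X Y : K)
    (hc : c ^ 2 + c - 1 = 0) (he : e ^ 2 = 18 + 11 * c) (hD : kD X Y ≠ 0) :
    ∃ P : (short (-27 * kC4 X Y) (-54 * kC6 X Y)).Point, P ≠ 0 ∧ 5 • P = 0 := by
  have h2 : (2 : K) ≠ 0 := by
    intro h
    apply h30
    have : (30 : K) = 2 * 15 := by norm_num
    rw [this, h, zero_mul]
  have h3 : (3 : K) ≠ 0 := by
    intro h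
    apply h30
    have : (30 : K) = 3 * 10 := by norm_num
    rw [this, h, zero_mul]
  have h5 : (5 : K) ≠ 0 := by
    intro h
    apply h30
    have : (30 : K) = 5 * 6 := by norm_num
    rw [this, h, zero_mul]
  have hΔ : 4 * (-27 * kC4 X Y) ^ 3 + 27 * (-54 * kC6 X Y) ^ 2 ≠ 0 := by
    have e : 4 * (-27 * kC4 X Y) ^ 3 + 27 * (-54 * kC6 X Y) ^ 2 = -(2 ^ 8 * 3 ^ 12 * kD X Y) := by
      linear_combination (-78732 : K) * kC_relation X Y
    rw [e]
    exact neg_ne_zero.2 (mul_ne_zero (mul_ne_zero (pow_ne_zero _ h2) (pow_ne_zero _ h3)) hD)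
  have heq : (108 * e * sg c X Y / 5) ^ 2
      = (sxi c X Y / 5) ^ 3 + (-27 * kC4 X Y) * (sxi c X Y / 5) + (-54 * kC6 X Y) := by
    have h := sec_eq_ring c X Y hc
    field_simp
    linear_combination (58320 * sg c X Y ^ 2) * he + h
  have hΔ' : (short (-27 * kC4 X Y) (-54 * kC6 X Y)).Δ ≠ 0 := by
    rw [short_Δ]
    have h16 : (-16 : K) ≠ 0 := by
      have : (-16 : K) = -(2 ^ 4) := by norm_num
      rw [this]
      exact neg_ne_zero.2 (pow_ne_zero _ h2)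
    exact mul_ne_zero h16 hΔ
  refine ⟨mkPt _ _ hΔ h2 _ _ heq, WeierstrassCurve.Affine.Point.some_ne_zero _, ?_⟩
  apply Fermat.Agent.S51.five_nsmul_eq_zero_of_p5 hΔ' (WeierstrassCurve.Affine.Point.some_ne_zero _)
  change Fermat.Agent.S51.p5 (short (-27 * kC4 X Y) (-54 * kC6 X Y)) (sxi c X Y / 5) = 0
  rw [RG_p5_short]
  have h1 := p5s_smul (5 : K) (-27 * kC4 X Y) (-54 * kC6 X Y) (sxi c X Y / 5)
  have e1 : (5 : K) ^ 2 * (-27 * kC4 X Y) = -675 * kC4 X Y := by ring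
  have e2 : (5 : K) ^ 3 * (-54 * kC6 X Y) = -6750 * kC6 X Y := by ring
  have e3 : (5 : K) * (sxi c X Y / 5) = sxi c X Y := mul_div_cancel₀ _ h5
  rw [e1, e2, e3, sec_p5_ring c X Y hc] at h1
  have h4 := (mul_eq_zero.1 h1.symm).resolve_left (pow_ne_zero _ h5)
  unfold p5s at h4
  exact h4

end Fermat.Agent.S52
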